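/-
S56 marathon, WP2 (q = p) of the Euler characteristic block (helper8), file 2: **the `ℤ[Γ]`-modules**.
`G = Gal(ℚ̄_p/ℚ_p)`, `π : G →* Γ` onto.  The multiplicative module `XU = (ℚ̄_pˣ)^{ker π}` and the
additive module `XA = (ℚ̄_p)^{ker π}` as `ℤ[Γ]`-modules (helper1's `InvMod`), their values in `ℚ̄_p`
(`uval`, `aval`), and the norm balls `ballU r` (`‖x − 1‖ ≤ r < 1`), `ballA r` (`‖y‖ ≤ r`).
-/
import Mathlib
import Fermat.Agent.S56lib.Euler.InvMod
import Fermat.Agent.S56lib.Kum.Levels
import Fermat.Agent.S55lib.LocalUnr.Padic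

set_option autoImplicit false
set_option linter.unusedSectionVars false
set_option linter.style.haveILetI false

noncomputable section

namespace Fermat.Agent.S56lib.PT9.LocU

open Fermat.Agent.S55lib Fermat.Agent.S55lib.LocalUnr Fermat.Agent.S56lib.Euler
  Fermat.Agent.S56lib.Kum IsUltrametricDist Function

/-! ### Submodules of `ℤ[Γ]`-modules from stable subgroups -/

section Gen

variable {Γ : Type} [Group Γ] {X : Type} [AddCommGroup X] [Module (ZG Γ) X]

/-- a subgroup stable under the group is a `ℤ[Γ]`-submodule -/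
def subOfGsm (S : AddSubgroup X) (h : ∀ (γ : Γ) (x : X), x ∈ S → gsm γ x ∈ S) :
    Submodule (ZG Γ) X where
  carrier := S
  add_mem' := S.add_mem
  zero_mem' := S.zero_mem
  smul_mem' := by
    intro a x hx
    induction a using MonoidAlgebra.induction_on with
    | of g => exact h g x hx
    | add a b ha hb => rw [add_smul]; exact S.add_mem ha hb
    | smul c a ha => rw [smul_assoc]; exact S.zsmul_mem ha c

@[simp] lemma mem_subOfGsm {S : AddSubgroup X} {h : ∀ (γ : Γ) (x : X), x ∈ S → gsm γ x ∈ S}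
    {x : X} : x ∈ subOfGsm S h ↔ x ∈ S := Iff.rfl

lemma gsm_mem {N : Submodule (ZG Γ) X} (γ : Γ) {x : X} (hx : x ∈ N) : gsm γ x ∈ N :=
  N.smul_mem _ hx

@[simp] lemma coe_gsm_sub (N : Submodule (ZG Γ) X) (γ : Γ) (x : N) :
    ((gsm γ x : N) : X) = gsm γ (x : X) := rfl

end Gen

/-- `‖w‖ = 1` for `‖w − 1‖ < 1` -/
lemma norm_eq_one_of_sub_one_lt {Ω : Type*} [NormedField Ω] [IsUltrametricDist Ω] {w : Ω}
    (hw : ‖w - 1‖ < 1) : ‖w‖ = 1 := by
  have : w = 1 + (w - 1) := by ring
  rw [this]; exact norm_one_add_eq_one hw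

variable (p : ℕ) [hp : Fact p.Prime]

/-- the absolute Galois group of `ℚ_p` -/
abbrev GP : Type := PadicAlgCl p ≃ₐ[ℚ_[p]] PadicAlgCl p

/-- `ℚ̄_pˣ` -/
abbrev repU : Rep.{0} ℤ (GP p) := Rep.ofAlgebraAutOnUnits ℚ_[p] (PadicAlgCl p)

/-- the Galois action on the additive group of `ℚ̄_p` -/
def repnA : Representation ℤ (GP p) (PadicAlgCl p) where
  toFun g := (g : PadicAlgCl p ≃ₐ[ℚ_[p]] PadicAlgCl p).toLinearMap.restrictScalars ℤ
  map_one' := rfl
  map_mul' _ _ := rfl

/-- `ℚ̄_p` as a Galois module -/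
abbrev repA : Rep.{0} ℤ (GP p) := Rep.of (repnA p)

@[simp] lemma repA_ρ_apply (g : GP p) (a : PadicAlgCl p) : (repA p).ρ g a = g a := rfl

lemma repU_ρ_apply (g : GP p) (u : Additive (PadicAlgCl p)ˣ) :
    (repU p).ρ g u = Additive.ofMul (Units.map (g : PadicAlgCl p →* PadicAlgCl p)
      (Additive.toMul u)) := rfl

/-- Galois automorphisms are isometries -/
lemma norm_gal (g : GP p) (a : PadicAlgCl p) : ‖g a‖ = ‖a‖ :=
  norm_algEquiv (K := ℚ_[p]) (L := PadicAlgCl p) g a

variable {p} {Γ : Type} [Group Γ] (π : GP p →* Γ) (hπ : Surjective π)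

/-- the multiplicative module `(ℚ̄_pˣ)^U` -/
abbrev XU : Type := InvMod π hπ (repU p)

/-- the additive module `(ℚ̄_p)^U` -/
abbrev XA : Type := InvMod π hπ (repA p)

variable {π hπ}

/-- the value of an element of `XU` -/
def uval (x : XU π hπ) : PadicAlgCl p :=
  ((Additive.toMul ((InvMod.fn π hπ (repU p) x : invSub π (repU p)) : repU p) : (PadicAlgCl p)ˣ) :
    PadicAlgCl p)

/-- the value of an element of `XA` -/
def aval (y : XA π hπ) : PadicAlgCl p := ((InvMod.fn π hπ (repA p) y : invSub π (repA p)) : repA p)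

lemma uval_ne_zero (x : XU π hπ) : uval x ≠ 0 := Units.ne_zero _

@[simp] lemma uval_zero : uval (0 : XU π hπ) = 1 := by
  unfold uval
  rw [map_zero]
  rfl

lemma uval_add (x x' : XU π hπ) : uval (x + x') = uval x * uval x' := by
  unfold uval
  rw [map_add]
  rfl

lemma uval_neg (x : XU π hπ) : uval (-x) = (uval x)⁻¹ := by
  unfold uval
  rw [map_neg]
  show (((Additive.toMul ((InvMod.fn π hπ (repU p) x : invSub π (repU p)) : repU p) :
    (PadicAlgCl p)ˣ)⁻¹ : (PadicAlgCl p)ˣ) : PadicAlgCl p) = _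
  rw [Units.val_inv_eq_inv_val]

lemma uval_sub (x x' : XU π hπ) : uval (x - x') = uval x / uval x' := by
  rw [sub_eq_add_neg, uval_add, uval_neg, div_eq_mul_inv]

lemma uval_nsmul (n : ℕ) (x : XU π hπ) : uval (n • x) = uval x ^ n := by
  induction n with
  | zero => rw [zero_smul, uval_zero, pow_zero]
  | succ n ih => rw [succ_nsmul, uval_add, ih, pow_succ]

lemma uval_gsm (g : GP p) (x : XU π hπ) : uval (gsm (π g) x) = g (uval x) := by
  unfold uval
  rw [InvMod.fn_gsm]
  rfl

lemma uval_fixed (x : XU π hπ) (u : GP p) (hu : u ∈ π.ker) : u (uval x) = uval x := by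
  have h := (InvMod.fn π hπ (repU p) x).2 u hu
  exact congrArg (fun z : Additive (PadicAlgCl p)ˣ =>
    ((Additive.toMul z : (PadicAlgCl p)ˣ) : PadicAlgCl p)) h

lemma uval_injective : Injective (uval : XU π hπ → PadicAlgCl p) := by
  intro x x' h
  apply InvMod.ext
  exact congrArg Additive.ofMul (Units.ext h)

/-- an element of `XU` from a fixed nonzero element -/
def XU.mk (a : PadicAlgCl p) (ha0 : a ≠ 0) (ha : ∀ u ∈ π.ker, u a = a) : XU π hπ :=
  InvMod.mk (Additive.ofMul (Units.mk0 a ha0) : Additive (PadicAlgCl p)ˣ) (fun u hu => by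
    rw [repU_ρ_apply]
    apply congrArg Additive.ofMul
    apply Units.ext
    exact ha u hu)

@[simp] lemma uval_mk (a : PadicAlgCl p) (ha0 : a ≠ 0) (ha : ∀ u ∈ π.ker, u a = a) :
    uval (XU.mk (π := π) (hπ := hπ) a ha0 ha) = a := by
  unfold uval XU.mk
  have h := InvMod.fn_mk (π := π) (hπ := hπ) (A := repU p)
    (Additive.ofMul (Units.mk0 a ha0) : Additive (PadicAlgCl p)ˣ) (fun u hu => by
    rw [repU_ρ_apply]
    apply congrArg Additive.ofMul
    apply Units.ext
    exact ha u hu)
  rw [h]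
  rfl

@[simp] lemma aval_zero : aval (0 : XA π hπ) = 0 := by
  unfold aval
  rw [map_zero]
  rfl

lemma aval_add (y y' : XA π hπ) : aval (y + y') = aval y + aval y' := by
  unfold aval
  rw [map_add]
  rfl

lemma aval_neg (y : XA π hπ) : aval (-y) = -aval y := by
  unfold aval
  rw [map_neg]
  rfl

lemma aval_sub (y y' : XA π hπ) : aval (y - y') = aval y - aval y' := by
  rw [sub_eq_add_neg, aval_add, aval_neg, sub_eq_add_neg]

lemma aval_nsmul (n : ℕ) (y : XA π hπ) : aval (n • y) = n * aval y := by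
  induction n with
  | zero => rw [zero_smul, aval_zero, Nat.cast_zero, zero_mul]
  | succ n ih => rw [succ_nsmul, aval_add, ih]; push_cast; ring

lemma aval_gsm (g : GP p) (y : XA π hπ) : aval (gsm (π g) y) = g (aval y) := by
  unfold aval
  rw [InvMod.fn_gsm]
  rfl

lemma aval_fixed (y : XA π hπ) (u : GP p) (hu : u ∈ π.ker) : u (aval y) = aval y :=
  (InvMod.fn π hπ (repA p) y).2 u hu

lemma aval_injective : Injective (aval : XA π hπ → PadicAlgCl p) := fun _ _ h => InvMod.ext h

/-- an element of `XA` from a fixed element -/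
def XA.mk (a : PadicAlgCl p) (ha : ∀ u ∈ π.ker, u a = a) : XA π hπ :=
  InvMod.mk (a : repA p) ha

@[simp] lemma aval_mk (a : PadicAlgCl p) (ha : ∀ u ∈ π.ker, u a = a) :
    aval (XA.mk (π := π) (hπ := hπ) a ha) = a := by
  unfold aval XA.mk
  exact InvMod.fn_mk (π := π) (hπ := hπ) (A := repA p) a ha

/-! ### The norm balls -/

variable (π hπ)

/-- the additive ball `{y | ‖y‖ ≤ r}` -/
def ballA (r : ℝ) : Submodule (ZG Γ) (XA π hπ) :=
  subOfGsm
    { carrier := {y | ‖aval y‖ ≤ max r 0}
      zero_mem' := by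
        show ‖aval (0 : XA π hπ)‖ ≤ _
        rw [aval_zero, norm_zero]
        exact le_max_right _ _
      add_mem' := by
        intro y y' hy hy'
        show ‖aval (y + y')‖ ≤ _
        rw [aval_add]
        exact (norm_add_le_max _ _).trans (max_le hy hy')
      neg_mem' := by
        intro y hy
        show ‖aval (-y)‖ ≤ _
        rw [aval_neg, norm_neg]
        exact hy }
    (by
      intro γ y hy
      obtain ⟨g, rfl⟩ := hπ γ
      show ‖aval (gsm (π g) y)‖ ≤ _
      rw [aval_gsm, norm_gal]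
      exact hy)

variable {π hπ}

lemma mem_ballA {r : ℝ} (hr : 0 ≤ r) {y : XA π hπ} : y ∈ ballA π hπ r ↔ ‖aval y‖ ≤ r := by
  show ‖aval y‖ ≤ max r 0 ↔ _
  rw [max_eq_left hr]

variable (π hπ)

/-- the multiplicative ball `{x | ‖x − 1‖ ≤ r}`, `r < 1` (for `r ≥ 1` it is the ball of radius `0`) -/
def ballU (r : ℝ) : Submodule (ZG Γ) (XU π hπ) :=
  subOfGsm
    { carrier := {x | ‖uval x - 1‖ ≤ if r < 1 then max r 0 else 0}
      zero_mem' := by
        show ‖uval (0 : XU π hπ) - 1‖ ≤ _
        rw [uval_zero, sub_self, norm_zero]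
        split_ifs
        · exact le_max_right _ _
        · exact le_rfl
      add_mem' := by
        intro x x' hx hx'
        have hlt : (if r < 1 then max r 0 else 0) < 1 := by
          split_ifs with h
          · exact max_lt h zero_lt_one
          · exact zero_lt_one
        show ‖uval (x + x') - 1‖ ≤ _
        rw [uval_add]
        have hx'1 : ‖uval x'‖ = 1 := norm_eq_one_of_sub_one_lt (lt_of_le_of_lt hx' hlt)
        have e : uval x * uval x' - 1 = (uval x - 1) * uval x' + (uval x' - 1) := by ring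
        rw [e]
        refine (norm_add_le_max _ _).trans (max_le ?_ hx')
        rw [norm_mul, hx'1, mul_one]
        exact hx
      neg_mem' := by
        intro x hx
        have hlt : (if r < 1 then max r 0 else 0) < 1 := by
          split_ifs with h
          · exact max_lt h zero_lt_one
          · exact zero_lt_one
        show ‖uval (-x) - 1‖ ≤ _
        rw [uval_neg, norm_inv_sub_one (norm_eq_one_of_sub_one_lt (lt_of_le_of_lt hx hlt))]
        exact hx }
    (by
      intro γ x hx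
      obtain ⟨g, rfl⟩ := hπ γ
      show ‖uval (gsm (π g) x) - 1‖ ≤ _
      rw [uval_gsm]
      have e : g (uval x) - 1 = g (uval x - 1) := by rw [map_sub, map_one]
      rw [e, norm_gal]
      exact hx)

variable {π hπ}

lemma mem_ballU {r : ℝ} (hr0 : 0 ≤ r) (hr1 : r < 1) {x : XU π hπ} :
    x ∈ ballU π hπ r ↔ ‖uval x - 1‖ ≤ r := by
  show ‖uval x - 1‖ ≤ (if r < 1 then max r 0 else 0) ↔ _
  rw [if_pos hr1, max_eq_left hr0]

end Fermat.Agent.S56lib.PT9.LocU
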