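/-
S56 marathon, WP2 of the Euler characteristic block (helper8), file 3: **the fixed field**.
`π : Gal(ℚ̄_p/ℚ_p) →* Γ` onto with `ker π = Gal(ℚ̄_p/E)`, `E/ℚ_p` finite.  The values of the invariant
modules `XU`, `XA` lie in `E`; bounded subsets of `E` are compact in `ℚ̄_p`; a quotient of a group mapping
`ε`-injectively (mod a subgroup) into a compact set is finite; finiteness and `PGood` along exact sequences.
-/
import Mathlib
import Fermat.Agent.S56lib.PT9.LocU.Modules
import Fermat.Agent.S56lib.Euler.SixTerm
import Fermat.Agent.S55lib.LocalUnr.Formation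
import Fermat.Agent.S55lib.Iface.Layers

set_option autoImplicit false
set_option linter.unusedSectionVars false
set_option linter.style.haveILetI false

noncomputable section

namespace Fermat.Agent.S56lib.PT9.LocU

open Fermat.Agent.S55lib Fermat.Agent.S55lib.LocalUnr Fermat.Agent.S56lib.Euler
  IsUltrametricDist Function

/-! ### Generalities on finiteness -/

section Fin

variable {R : Type} [Ring R] {A B C : Type} [AddCommGroup A] [Module R A] [AddCommGroup B]
  [Module R B] [AddCommGroup C] [Module R C]

/-- the middle term of an exact sequence with finite ends is finite -/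
theorem finite_of_exact (f : A →ₗ[R] B) (g : B →ₗ[R] C) (h : Exact f g) [Finite A] [Finite C] :
    Finite B := by
  have hfib : ∀ c ∈ (Set.univ : Set C), (g ⁻¹' {c}).Finite := by
    intro c _
    by_cases hc : ∃ b₀, g b₀ = c
    · obtain ⟨b₀, rfl⟩ := hc
      refine (Set.finite_range (fun a : A => b₀ + f a)).subset ?_
      intro b hb
      have hb' : g (b - b₀) = 0 := by
        rw [map_sub, Set.mem_preimage, Set.mem_singleton_iff] at *
        rw [hb, sub_self]
      obtain ⟨a, ha⟩ := (h _).1 hb'
      exact ⟨a, by simp only; rw [ha]; abel⟩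
    · have : g ⁻¹' {c} = ∅ := by
        ext b
        simp only [Set.mem_preimage, Set.mem_singleton_iff, Set.mem_empty_iff_false, iff_false]
        exact fun hb => hc ⟨b, hb⟩
      rw [this]
      exact Set.finite_empty
  have := Set.Finite.preimage' (f := g) Set.finite_univ hfib
  rw [Set.preimage_univ] at this
  exact Set.finite_univ_iff.1 this

variable (p : ℕ)

/-- `PGood` is stable under extensions -/
theorem pGood_of_exact (f : A →ₗ[R] B) (g : B →ₗ[R] C) (hf : Injective f) (hg : Surjective g)
    (hfg : Exact f g) [hA : PGood R p A] [hC : PGood R p C] : PGood R p B := by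
  haveI := hA.fin_tors
  haveI := hA.fin_cot
  haveI := hC.fin_tors
  haveI := hC.fin_cot
  exact ⟨finite_of_exact _ _ (torsMap_exact (p := p) f g hf hfg),
    finite_of_exact _ _ (cotMap_exact (p := p) f g hg hfg)⟩

/-- `PGood` is invariant under isomorphisms -/
theorem pGood_of_linearEquiv (e : A ≃ₗ[R] B) [hA : PGood R p A] : PGood R p B := by
  haveI := hA.fin_tors
  haveI := hA.fin_cot
  exact ⟨Finite.of_injective _ (torsMap_injective (p := p) e.symm.toLinearMap e.symm.injective),
    Finite.of_surjective _ (cotMap_surjective (p := p) e.toLinearMap e.surjective)⟩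

/-- a quotient of `A` is finite as soon as `A` maps to a compact set of a metric space in such a way
that points with close images are congruent -/
theorem finite_quotient_of_compact {K : Type*} [PseudoMetricSpace K] (N : Submodule R A)
    (ι : A → K) (S : Set K) (hS : IsCompact S) (hι : ∀ a, ι a ∈ S) (ε : ℝ) (hε : 0 < ε)
    (h : ∀ a a', dist (ι a) (ι a') < ε → a - a' ∈ N) : Finite (A ⧸ N) := by
  obtain ⟨t, -, htf, hcov⟩ := hS.finite_cover_balls (half_pos hε)
  have hex : ∀ a : A, ∃ x : t, ι a ∈ Metric.ball (x : K) (ε / 2) := by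
    intro a
    have := hcov (hι a)
    simp only [Set.mem_iUnion, exists_prop] at this
    obtain ⟨x, hx, hax⟩ := this
    exact ⟨⟨x, hx⟩, hax⟩
  choose c hc using hex
  haveI : Finite t := htf.to_subtype
  have hsurj : ∀ q : A ⧸ N, ∃ a : A, Submodule.Quotient.mk a = q :=
    Submodule.Quotient.mk_surjective N
  choose s hs using hsurj
  refine Finite.of_injective (fun q : A ⧸ N => c (s q)) ?_
  intro q q' hqq
  simp only at hqq
  have h1 := hc (s q)
  have h2 := hc (s q')
  rw [hqq] at h1
  rw [Metric.mem_ball] at h1 h2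
  have hd : dist (ι (s q)) (ι (s q')) < ε := by
    calc dist (ι (s q)) (ι (s q')) ≤ dist (ι (s q)) (c (s q') : K) + dist (ι (s q')) (c (s q') : K) :=
          dist_triangle_right _ _ _
      _ < ε / 2 + ε / 2 := add_lt_add h1 h2
      _ = ε := add_halves ε
  rw [← hs q, ← hs q']
  exact (Submodule.Quotient.eq N).2 (h _ _ hd)

end Fin

/-! ### The fixed field -/

variable {p : ℕ} [hp : Fact p.Prime] {Γ : Type} [Group Γ] {π : GP p →* Γ} {hπ : Surjective π}
  (E : IntermediateField ℚ_[p] (PadicAlgCl p)) (hE : π.ker = E.fixingSubgroup)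

include hE in
lemma mem_E_of_fixed {a : PadicAlgCl p} (ha : ∀ u ∈ π.ker, u a = a) : a ∈ E :=
  LocalUnr.mem_of_fixed E (by rw [← hE]; exact ha)

include hE in
lemma fixed_of_mem_E {a : PadicAlgCl p} (ha : a ∈ E) (u : GP p) (hu : u ∈ π.ker) : u a = a := by
  rw [hE] at hu
  exact hu ⟨a, ha⟩

include hE in
lemma uval_mem (x : XU π hπ) : uval x ∈ E := mem_E_of_fixed E hE (uval_fixed x)

include hE in
lemma aval_mem (y : XA π hπ) : aval y ∈ E := mem_E_of_fixed E hE (aval_fixed y)

/-- bounded subsets of `E` are compact -/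
lemma isCompact_ballE [FiniteDimensional ℚ_[p] E] (R : ℝ) :
    IsCompact {y : PadicAlgCl p | y ∈ E ∧ ‖y‖ ≤ R} := by
  have h := (isCompact_closedBall (0 : E) R).image continuous_subtype_val
  convert h using 1
  ext y
  simp only [Set.mem_ofPred_eq, Set.mem_image, Metric.mem_closedBall, dist_zero_right]
  constructor
  · rintro ⟨hy, hyR⟩
    exact ⟨⟨y, hy⟩, hyR, rfl⟩
  · rintro ⟨z, hz, rfl⟩
    exact ⟨z.2, hz⟩

end Fermat.Agent.S56lib.PT9.LocU
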