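/-
S56 marathon, WP2 of the Euler characteristic block (helper8), file 4: **the valuation sequence**.
For `X = XU = E^×` (`E` the fixed field of `ker π`, finite over `ℚ_p`) and every prime `l`:
`0 → 𝒪^× → X → ℤ → 0` and `𝒪^×/ballU r` finite give
`δ_ψ(X) = δ_ψ(ballU r) − ψ(𝔽_l)` (`delta_XU`), for every radius `0 < r < 1`.
-/
import Mathlib
import Fermat.Agent.S56lib.PT9.LocU.Field
import Fermat.Agent.S56lib.Euler.Perm
import Fermat.Agent.S55lib.LocalUnr.Ord
import Fermat.Agent.S55lib.LocalUnr.Padic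

set_option autoImplicit false
set_option linter.unusedSectionVars false
set_option linter.style.haveILetI false

noncomputable section

namespace Fermat.Agent.S56lib.PT9.LocU

open Fermat.Agent.S55lib Fermat.Agent.S55lib.LocalUnr Fermat.Agent.S56lib.Euler
  Fermat.Agent.S56lib.Kum IsUltrametricDist Function

variable {p : ℕ} [hp : Fact p.Prime] {Γ : Type} [Group Γ] {π : GP p →* Γ} {hπ : Surjective π}
  (E : IntermediateField ℚ_[p] (PadicAlgCl p)) [FiniteDimensional ℚ_[p] E]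
  (hE : π.ker = E.fixingSubgroup)

/-- the value as an element of `E` -/
def uvalE (x : XU π hπ) : E := ⟨uval x, uval_mem E hE x⟩

lemma uvalE_ne_zero (x : XU π hπ) : uvalE E hE x ≠ 0 := by
  intro h
  exact uval_ne_zero x (congrArg Subtype.val h)

lemma norm_uvalE (x : XU π hπ) : ‖uvalE E hE x‖ = ‖uval x‖ := rfl

/-- the normalised valuation on `X = E^×` -/
def vord (x : XU π hπ) : ℤ := ord E (uvalE E hE x)

lemma vord_add (x x' : XU π hπ) : vord E hE (x + x') = vord E hE x + vord E hE x' := by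
  unfold vord
  rw [← ord_mul (uvalE_ne_zero E hE x) (uvalE_ne_zero E hE x')]
  have e : uvalE E hE (x + x') = uvalE E hE x * uvalE E hE x' := Subtype.ext (uval_add x x')
  rw [e]

lemma vord_eq_of_norm_eq {x x' : XU π hπ} (h : ‖uval x‖ = ‖uval x'‖) :
    vord E hE x = vord E hE x' := by
  unfold vord
  apply ord_eq_of_norm_eq
  rw [norm_uvalE, h, ← norm_uvalE E hE x']
  exact norm_eq_zpow_ord (uvalE_ne_zero E hE x')

lemma vord_gsm (γ : Γ) (x : XU π hπ) : vord E hE (gsm γ x) = vord E hE x := by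
  obtain ⟨g, rfl⟩ := hπ γ
  apply vord_eq_of_norm_eq
  rw [uval_gsm, norm_gal]

lemma vord_eq_zero_iff (x : XU π hπ) : vord E hE x = 0 ↔ ‖uval x‖ = 1 := by
  unfold vord
  rw [ord_eq_zero_iff (uvalE_ne_zero E hE x), norm_uvalE]

include hE in
lemma exists_vord_eq (n : ℤ) : ∃ x : XU π hπ, vord E hE x = n := by
  have hu0 : (unif E : E) ≠ 0 := (unif_isUniformizer E).ne_zero
  have hne : ((unif E ^ n : E) : PadicAlgCl p) ≠ 0 := by
    intro h
    exact zpow_ne_zero n hu0 (Subtype.ext h)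
  refine ⟨XU.mk ((unif E ^ n : E) : PadicAlgCl p) hne
    (fun u hu => fixed_of_mem_E E hE (unif E ^ n : E).2 u hu), ?_⟩
  unfold vord
  apply ord_eq_of_norm_eq
  rw [norm_uvalE, uval_mk]
  show ‖(unif E ^ n : E)‖ = _
  rw [norm_zpow]
  rfl

variable [Finite Γ]

/-- the valuation as a `ℤ[Γ]`-linear map to the trivial module `ℤ` -/
def vmap : XU π hπ →ₗ[ZG Γ] PermMod Γ ℤ (Γ ⧸ (⊤ : Subgroup Γ)) :=
  linOfComm
    (AddMonoidHom.mk' (fun x => PermMod.fn.symm (fun _ => vord E hE x)) (by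
      intro x x'
      rw [← map_add]
      congr 1
      funext _
      exact vord_add E hE x x'))
    (by
      intro g x
      apply PermMod.ext
      intro y
      rw [PermMod.fn_gsm]
      simp only [AddMonoidHom.mk'_apply, AddEquiv.apply_symm_apply]
      exact vord_gsm E hE g x)

lemma fn_vmap (x : XU π hπ) (y : Γ ⧸ (⊤ : Subgroup Γ)) :
    PermMod.fn (vmap E hE x) y = vord E hE x := by
  unfold vmap
  simp [linOfComm]

lemma vmap_surjective : Surjective (vmap (π := π) (hπ := hπ) E hE) := by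
  intro u
  obtain ⟨x, hx⟩ := exists_vord_eq (π := π) (hπ := hπ) E hE
    (PermMod.fn u (QuotientGroup.mk 1))
  refine ⟨x, ?_⟩
  apply PermMod.ext
  intro y
  haveI : Subsingleton (Γ ⧸ (⊤ : Subgroup Γ)) := QuotientGroup.subsingleton_quotient_top
  rw [fn_vmap, hx, Subsingleton.elim y (QuotientGroup.mk 1)]

/-- the units `𝒪_E^×` -/
def U0 : Submodule (ZG Γ) (XU π hπ) := LinearMap.ker (vmap E hE)

lemma mem_U0 {x : XU π hπ} : x ∈ U0 E hE ↔ ‖uval x‖ = 1 := by
  unfold U0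
  rw [LinearMap.mem_ker, ← vord_eq_zero_iff E hE]
  constructor
  · intro h
    rw [← fn_vmap E hE x (QuotientGroup.mk 1), h]
    rfl
  · intro h
    apply PermMod.ext
    intro y
    rw [fn_vmap, h]
    rfl

lemma ballU_le_U0 (r : ℝ) : ballU π hπ r ≤ U0 E hE := by
  intro x hx
  rw [mem_U0]
  have hx' : ‖uval x - 1‖ ≤ if r < 1 then max r 0 else 0 := hx
  have hlt : (if r < 1 then max r 0 else 0) < 1 := by
    split_ifs with h
    · exact max_lt h zero_lt_one
    · exact zero_lt_one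
  exact norm_eq_one_of_sub_one_lt (lt_of_le_of_lt hx' hlt)

/-- `ballU r` inside the units -/
def ballU0 (r : ℝ) : Submodule (ZG Γ) (U0 (π := π) (hπ := hπ) E hE) :=
  Submodule.comap (U0 E hE).subtype (ballU π hπ r)

/-- `ballU r` inside the units is `ballU r` -/
def ballU0Equiv (r : ℝ) : ballU0 (π := π) (hπ := hπ) E hE r ≃ₗ[ZG Γ] ballU π hπ r :=
  Submodule.comapSubtypeEquivOfLe (ballU_le_U0 E hE r)

/-- **`𝒪^×/ballU r` is finite** -/
instance finite_U0_quot (r : ℝ) [hr : Fact (0 < r ∧ r < 1)] :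
    Finite (U0 (π := π) (hπ := hπ) E hE ⧸ ballU0 E hE r) := by
  refine finite_quotient_of_compact (ballU0 E hE r) (fun a => uval (a : XU π hπ))
    {y : PadicAlgCl p | y ∈ E ∧ ‖y‖ ≤ 1} (isCompact_ballE E 1)
    (fun a => ⟨uval_mem E hE _, ((mem_U0 E hE).1 a.2).le⟩) r hr.out.1 ?_
  intro a a' hd
  show ((a - a' : U0 E hE) : XU π hπ) ∈ ballU π hπ r
  rw [mem_ballU hr.out.1.le hr.out.2, Submodule.coe_sub, uval_sub]
  have h1 : ‖uval (a' : XU π hπ)‖ = 1 := (mem_U0 E hE).1 a'.2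
  have h0 : uval (a' : XU π hπ) ≠ 0 := uval_ne_zero _
  have e : uval (a : XU π hπ) / uval (a' : XU π hπ) - 1 =
      (uval (a : XU π hπ) - uval (a' : XU π hπ)) / uval (a' : XU π hπ) := by
    field_simp
  rw [e, norm_div, h1, div_one, ← dist_eq_norm]
  exact hd.le

variable (l : ℕ) [hl : Fact l.Prime]

include hE in
/-- **the reduction to a ball**: `δ(E^×) = δ(ballU r) − ψ(𝔽_l)` -/
theorem delta_XU (r : ℝ) (hr0 : 0 < r) (hr1 : r < 1) [hB : PGood (ZG Γ) l (ballU π hπ r)] :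
    PGood (ZG Γ) l (XU π hπ) ∧ ∀ ψ : AddInvariant (ZG Γ) l,
      delta (ZG Γ) l (XU π hπ) ψ = delta (ZG Γ) l (ballU π hπ r) ψ
        - ψ.val (PermMod Γ (ZMod l) (Γ ⧸ (⊤ : Subgroup Γ))) := by
  haveI : Fact (0 < r ∧ r < 1) := ⟨⟨hr0, hr1⟩⟩
  haveI hB0 : PGood (ZG Γ) l (ballU0 (π := π) (hπ := hπ) E hE r) :=
    pGood_of_linearEquiv l (ballU0Equiv E hE r).symm
  haveI hU0 : PGood (ZG Γ) l (U0 (π := π) (hπ := hπ) E hE) :=
    pGood_of_exact (A := ballU0 (π := π) (hπ := hπ) E hE r) l (ballU0 E hE r).subtype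
      (ballU0 E hE r).mkQ (Submodule.injective_subtype _) (Submodule.mkQ_surjective _)
      (LinearMap.exact_subtype_mkQ (ballU0 E hE r))
  haveI hZ : PGood (ZG Γ) l (PermMod Γ ℤ (Γ ⧸ (⊤ : Subgroup Γ))) :=
    pGood_of_tors_eq_bot _ (PermMod.tors_eq_bot l _)
  haveI hX : PGood (ZG Γ) l (XU π hπ) :=
    pGood_of_exact (A := U0 (π := π) (hπ := hπ) E hE) l (U0 E hE).subtype (vmap E hE)
      (Submodule.injective_subtype _) (vmap_surjective E hE) (LinearMap.exact_subtype_ker_map _)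
  refine ⟨hX, fun ψ => ?_⟩
  have h1 := delta_add (A := U0 (π := π) (hπ := hπ) E hE) ψ (U0 E hE).subtype (vmap E hE)
    (Submodule.injective_subtype _)
    (vmap_surjective (π := π) (hπ := hπ) E hE) (LinearMap.exact_subtype_ker_map _)
  have h2 := delta_add (A := ballU0 (π := π) (hπ := hπ) E hE r) ψ
    (ballU0 (π := π) (hπ := hπ) E hE r).subtype (ballU0 E hE r).mkQ
    (Submodule.injective_subtype _) (Submodule.mkQ_surjective _)
    (LinearMap.exact_subtype_mkQ (ballU0 E hE r))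
  have h3 := delta_eq_zero_of_finite ψ (U0 (π := π) (hπ := hπ) E hE ⧸ ballU0 E hE r)
  have h4 := delta_congr (A := ballU0 (π := π) (hπ := hπ) E hE r) (B := ballU π hπ r) ψ
    (ballU0Equiv (π := π) (hπ := hπ) E hE r)
  have h5 := delta_of_tors_eq_bot ψ (PermMod Γ ℤ (Γ ⧸ (⊤ : Subgroup Γ)))
    (PermMod.tors_eq_bot l _)
  have h6 : ψ.val (Cot (ZG Γ) l (PermMod Γ ℤ (Γ ⧸ (⊤ : Subgroup Γ)))) =
      ψ.val (PermMod Γ (ZMod l) (Γ ⧸ (⊤ : Subgroup Γ))) :=
    ψ.iso _ _ (PermMod.cotEquiv l _)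
  rw [h1, h2, h3, h4, h5, h6]
  ring

end Fermat.Agent.S56lib.PT9.LocU
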