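/-
S56 marathon, WP2 (q = p) of the Euler characteristic block (helper8), file 5: **the cotorsion of the ball
`BU = {‖x − 1‖ ≤ ‖p‖}`**, `p` odd.  `BU` has no `p`-torsion, and `x ↦ (x − 1)/p` induces a `ℤ[Γ]`-isomorphism
`BU/p ≅ OA/p` where `OA = {‖y‖ ≤ 1} = 𝒪_E` (additive): the kernel `{‖x − 1‖ ≤ ‖p‖²}` is exactly the set of
`p`-th powers of `BU` (`LocU/Arith`).
-/
import Mathlib
import Fermat.Agent.S56lib.PT9.LocU.Common
import Fermat.Agent.S56lib.PT9.LocU.Arith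

set_option autoImplicit false
set_option linter.unusedSectionVars false
set_option linter.style.haveILetI false

noncomputable section

namespace Fermat.Agent.S56lib.PT9.LocU

open Fermat.Agent.S55lib Fermat.Agent.S55lib.LocalUnr Fermat.Agent.S56lib.Euler
  Fermat.Agent.S56lib.Kum IsUltrametricDist Function

variable {p : ℕ} [hp : Fact p.Prime]

lemma norm_p_eq : ‖(p : PadicAlgCl p)‖ = (p : ℝ)⁻¹ := by
  have h : (p : PadicAlgCl p) = algebraMap ℚ_[p] (PadicAlgCl p) (p : ℚ_[p]) := by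
    rw [map_natCast]
  rw [h, norm_algebraMap', Padic.norm_p]

lemma norm_p_pos : 0 < ‖(p : PadicAlgCl p)‖ := by
  rw [norm_p_eq]
  exact inv_pos.2 (by exact_mod_cast hp.out.pos)

lemma norm_p_lt_one : ‖(p : PadicAlgCl p)‖ < 1 := by
  rw [norm_p_eq]
  exact inv_lt_one_of_one_lt₀ (by exact_mod_cast hp.out.one_lt)

lemma p_ne_zero : (p : PadicAlgCl p) ≠ 0 := norm_pos_iff.1 norm_p_pos

variable {Γ : Type} [Group Γ] (π : GP p →* Γ) (hπ : Surjective π)

/-- the ball `{‖x − 1‖ ≤ ‖p‖}` of `XU` -/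
abbrev BU : Submodule (ZG Γ) (XU π hπ) := ballU π hπ ‖(p : PadicAlgCl p)‖

/-- the unit ball `{‖y‖ ≤ 1}` of `XA` -/
abbrev OA : Submodule (ZG Γ) (XA π hπ) := ballA π hπ 1

variable {π hπ}

lemma mem_BU {x : XU π hπ} : x ∈ BU π hπ ↔ ‖uval x - 1‖ ≤ ‖(p : PadicAlgCl p)‖ :=
  mem_ballU norm_p_pos.le norm_p_lt_one

lemma mem_OA {y : XA π hπ} : y ∈ OA π hπ ↔ ‖aval y‖ ≤ 1 := mem_ballA zero_le_one

lemma norm_uval_BU (x : BU π hπ) : ‖uval (x : XU π hπ) - 1‖ ≤ ‖(p : PadicAlgCl p)‖ := mem_BU.1 x.2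

lemma norm_aval_OA (y : OA π hπ) : ‖aval (y : XA π hπ)‖ ≤ 1 := mem_OA.1 y.2

/-- an element of `OA` -/
def OA.mk (a : PadicAlgCl p) (ha : ∀ u ∈ π.ker, u a = a) (h1 : ‖a‖ ≤ 1) : OA π hπ :=
  ⟨XA.mk a ha, mem_OA.2 (by rw [aval_mk]; exact h1)⟩

@[simp] lemma aval_OA_mk (a : PadicAlgCl p) (ha : ∀ u ∈ π.ker, u a = a) (h1 : ‖a‖ ≤ 1) :
    aval ((OA.mk (π := π) (hπ := hπ) a ha h1 : OA π hπ) : XA π hπ) = a := aval_mk a ha

/-- an element of `BU` -/
def BU.mk (a : PadicAlgCl p) (ha : ∀ u ∈ π.ker, u a = a) (h1 : ‖a - 1‖ ≤ ‖(p : PadicAlgCl p)‖) :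
    BU π hπ :=
  ⟨XU.mk a (by
    intro h
    rw [h, zero_sub, norm_neg, norm_one] at h1
    exact absurd h1 (not_le.2 norm_p_lt_one)) ha, mem_BU.2 (by rw [uval_mk]; exact h1)⟩

@[simp] lemma uval_BU_mk (a : PadicAlgCl p) (ha : ∀ u ∈ π.ker, u a = a)
    (h1 : ‖a - 1‖ ≤ ‖(p : PadicAlgCl p)‖) :
    uval ((BU.mk (π := π) (hπ := hπ) a ha h1 : BU π hπ) : XU π hπ) = a := uval_mk a _ ha

lemma OA_ext {y y' : OA π hπ} (h : aval (y : XA π hπ) = aval (y' : XA π hπ)) : y = y' :=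
  Subtype.ext (aval_injective h)

lemma BU_ext {x x' : BU π hπ} (h : uval (x : XU π hπ) = uval (x' : XU π hπ)) : x = x' :=
  Subtype.ext (uval_injective h)

/-! ### No `p`-torsion -/

/-- **`BU` has no `p`-torsion** (`p` odd) -/
theorem tors_BU (hp2 : p ≠ 2) : tors (ZG Γ) p (BU π hπ) = ⊥ := by
  rw [eq_bot_iff]
  intro x hx
  rw [mem_tors] at hx
  rw [Submodule.mem_bot]
  have h1 : uval (x : XU π hπ) ^ p = 1 := by
    rw [← uval_nsmul, ← Submodule.coe_smul_of_tower, hx, Submodule.coe_zero, uval_zero]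
  have h2 := norm_pow_sub_one_eq hp.out hp2 norm_p_lt_one (norm_uval_BU x)
  rw [h1, sub_self, norm_zero] at h2
  have h3 : ‖uval (x : XU π hπ) - 1‖ = 0 := by
    rcases mul_eq_zero.1 h2.symm with h | h
    · exact absurd h norm_p_pos.ne'
    · exact h
  apply BU_ext
  rw [Submodule.coe_zero, uval_zero]
  exact sub_eq_zero.1 (norm_eq_zero.1 h3)

/-- `OA` has no `p`-torsion -/
theorem tors_OA : tors (ZG Γ) p (OA π hπ) = ⊥ := by
  rw [eq_bot_iff]
  intro y hy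
  rw [mem_tors] at hy
  rw [Submodule.mem_bot]
  have h1 : (p : PadicAlgCl p) * aval (y : XA π hπ) = 0 := by
    rw [← aval_nsmul, ← Submodule.coe_smul_of_tower, hy, Submodule.coe_zero, aval_zero]
  apply OA_ext
  rw [Submodule.coe_zero, aval_zero]
  rcases mul_eq_zero.1 h1 with h | h
  · exact absurd h p_ne_zero
  · exact h

/-! ### The logarithm mod `p` -/

/-- `x ↦ (x − 1)/p : BU → OA` -/
def lg (x : BU π hπ) : OA π hπ :=
  OA.mk ((uval (x : XU π hπ) - 1) / p) (by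
    intro u hu
    rw [map_div₀, map_sub, map_one, map_natCast, uval_fixed _ u hu]) (by
    rw [norm_div, div_le_one norm_p_pos]
    exact norm_uval_BU x)

@[simp] lemma aval_lg (x : BU π hπ) :
    aval ((lg x : OA π hπ) : XA π hπ) = (uval (x : XU π hπ) - 1) / p := aval_OA_mk _ _ _

/-- the product on `OA` -/
def OA.mul (y y' : OA π hπ) : OA π hπ :=
  OA.mk (aval (y : XA π hπ) * aval (y' : XA π hπ)) (by
    intro u hu
    rw [map_mul, aval_fixed _ u hu, aval_fixed _ u hu]) (by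
    rw [norm_mul]
    exact mul_le_one₀ (norm_aval_OA y) (norm_nonneg _) (norm_aval_OA y'))

lemma lg_add (x x' : BU π hπ) : lg (x + x') = lg x + lg x' + p • OA.mul (lg x) (lg x') := by
  apply OA_ext
  rw [Submodule.coe_add, Submodule.coe_add, Submodule.coe_smul_of_tower, aval_add, aval_add,
    aval_nsmul, aval_lg, aval_lg, aval_lg, Submodule.coe_add, uval_add]
  unfold OA.mul
  rw [aval_OA_mk, aval_lg, aval_lg]
  have := p_ne_zero (p := p)
  field_simp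
  ring

lemma lg_gsm (γ : Γ) (x : BU π hπ) : lg (gsm γ x) = gsm γ (lg x) := by
  obtain ⟨g, rfl⟩ := hπ γ
  apply OA_ext
  rw [coe_gsm_sub, aval_gsm, aval_lg, aval_lg, coe_gsm_sub, uval_gsm, map_div₀, map_sub, map_one,
    map_natCast]

/-- the logarithm mod `p` as a `ℤ[Γ]`-linear map `BU → OA/p` -/
def lgMod : BU π hπ →ₗ[ZG Γ] Cot (ZG Γ) p (OA π hπ) :=
  linOfComm
    (AddMonoidHom.mk' (fun x => (Submodule.Quotient.mk (lg x) : Cot (ZG Γ) p (OA π hπ))) (by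
      intro x x'
      rw [lg_add, Submodule.Quotient.mk_add, Submodule.Quotient.mk_add]
      have h : (Submodule.Quotient.mk (p • OA.mul (lg x) (lg x')) : Cot (ZG Γ) p (OA π hπ)) = 0 :=
        cot_mk_eq_zero.2 ⟨_, rfl⟩
      rw [h, add_zero]))
    (by
      intro g x
      simp only [AddMonoidHom.mk'_apply]
      rw [lg_gsm]
      exact gsm_linear (LinearMap.range (mulP (ZG Γ) p (OA π hπ))).mkQ g (lg x))

lemma lgMod_apply (x : BU π hπ) :
    lgMod x = (Submodule.Quotient.mk (lg x) : Cot (ZG Γ) p (OA π hπ)) := by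
  unfold lgMod
  simp [linOfComm]

lemma lgMod_surjective : Surjective (lgMod (π := π) (hπ := hπ)) := by
  intro c
  obtain ⟨y, rfl⟩ := Submodule.Quotient.mk_surjective _ c
  have hn : ‖(p : PadicAlgCl p) * aval (y : XA π hπ)‖ ≤ ‖(p : PadicAlgCl p)‖ := by
    rw [norm_mul]
    exact mul_le_of_le_one_right (norm_nonneg _) (norm_aval_OA y)
  refine ⟨BU.mk (1 + p * aval (y : XA π hπ)) (by
    intro u hu
    rw [map_add, map_one, map_mul, map_natCast, aval_fixed _ u hu]) (by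
    rw [add_sub_cancel_left]
    exact hn), ?_⟩
  rw [lgMod_apply]
  congr 1
  apply OA_ext
  rw [aval_lg, uval_BU_mk, add_sub_cancel_left, mul_div_cancel_left₀ _ p_ne_zero]

variable (E : IntermediateField ℚ_[p] (PadicAlgCl p)) [FiniteDimensional ℚ_[p] E]
  (hE : π.ker = E.fixingSubgroup)

include hE in
/-- **the kernel of the logarithm mod `p` is `p·BU`** (`p` odd) -/
theorem ker_lgMod (hp2 : p ≠ 2) :
    LinearMap.ker (lgMod (π := π) (hπ := hπ)) = LinearMap.range (mulP (ZG Γ) p (BU π hπ)) := by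
  have hp0 := p_ne_zero (p := p)
  ext x
  rw [LinearMap.mem_ker, lgMod_apply, cot_mk_eq_zero, LinearMap.mem_range]
  constructor
  · rintro ⟨w, hw⟩
    -- `‖x − 1‖ ≤ ‖p‖²`
    have h1 : (p : PadicAlgCl p) * aval (w : XA π hπ) = (uval (x : XU π hπ) - 1) / p := by
      rw [← aval_nsmul, ← Submodule.coe_smul_of_tower, hw, aval_lg]
    have h2 : uval (x : XU π hπ) - 1 = (p : PadicAlgCl p) ^ 2 * aval (w : XA π hπ) := by
      field_simp at h1
      rw [← h1]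
    have h3 : ‖uval (x : XU π hπ) - 1‖ ≤ ‖(p : PadicAlgCl p)‖ ^ 2 := by
      rw [h2, norm_mul, norm_pow]
      exact mul_le_of_le_one_right (pow_nonneg (norm_nonneg _) _) (norm_aval_OA w)
    -- extract the root in `E`
    have hpE : ‖((p : ℕ) : E)‖ = ‖(p : PadicAlgCl p)‖ := rfl
    have hz : ‖uvalE E hE (x : XU π hπ) - 1‖ ≤ ‖((p : ℕ) : E)‖ ^ 2 := by
      rw [hpE]
      exact h3
    obtain ⟨x', hx'1, hx'2⟩ := exists_pow_eq_of_norm_le (K := E) hp.out hp2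
      (by rw [hpE]; exact norm_p_lt_one) (by
        intro h
        rw [← norm_eq_zero, hpE] at h
        exact norm_p_pos.ne' h) hz
    have hx'3 : ‖(x' : PadicAlgCl p) - 1‖ ≤ ‖(p : PadicAlgCl p)‖ := hx'1
    refine ⟨BU.mk (x' : PadicAlgCl p) (fun u hu => fixed_of_mem_E E hE x'.2 u hu) hx'3, ?_⟩
    apply BU_ext
    rw [mulP_apply, Submodule.coe_smul_of_tower, uval_nsmul, uval_BU_mk]
    exact congrArg Subtype.val hx'2
  · rintro ⟨x', rfl⟩
    rw [mulP_apply]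
    have h1 : uval ((p • x' : BU π hπ) : XU π hπ) = uval (x' : XU π hπ) ^ p := by
      rw [Submodule.coe_smul_of_tower, uval_nsmul]
    have h2 := norm_pow_sub_one_eq hp.out hp2 norm_p_lt_one (norm_uval_BU x')
    have h3 : ‖uval (x' : XU π hπ) ^ p - 1‖ ≤ ‖(p : PadicAlgCl p)‖ ^ 2 := by
      rw [h2, pow_two]
      exact mul_le_mul_of_nonneg_left (norm_uval_BU x') (norm_nonneg _)
    refine ⟨OA.mk ((uval (x' : XU π hπ) ^ p - 1) / (p : PadicAlgCl p) ^ 2) (by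
      intro u hu
      rw [map_div₀, map_sub, map_one, map_pow, map_pow, map_natCast, uval_fixed _ u hu]) (by
      rw [norm_div, norm_pow, div_le_one (pow_pos norm_p_pos 2)]
      exact h3), ?_⟩
    apply OA_ext
    rw [Submodule.coe_smul_of_tower, aval_nsmul, aval_OA_mk, aval_lg, h1]
    field_simp

/-- **`BU/p ≅ OA/p`** (`p` odd) -/
def cotBU (hp2 : p ≠ 2) : Cot (ZG Γ) p (BU π hπ) ≃ₗ[ZG Γ] Cot (ZG Γ) p (OA π hπ) :=
  (Submodule.quotEquivOfEq _ _ (ker_lgMod E hE hp2).symm).trans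
    ((lgMod (π := π) (hπ := hπ)).quotKerEquivOfSurjective lgMod_surjective)

end Fermat.Agent.S56lib.PT9.LocU
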