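/-
S56 marathon, WP2 (q = p) of the Euler characteristic block (helper8), file 7: **the normal basis lattice**.
`E/ℚ_p` finite Galois with group `Γ` (`ker π = Gal(ℚ̄_p/E)`): an integral normal basis gives an injective
`ℤ[Γ]`-linear map `ℤ_p[Γ] → OA = 𝒪_E` with finite cokernel, whence (Brauer–Nesbitt for lattices)
`ψ(𝒪_E/p) = ψ(𝔽_p[Γ])` for every additive invariant `ψ`.
-/
import Mathlib
import Fermat.Agent.S56lib.PT9.LocU.Cot
import Fermat.Agent.S56lib.PT9.LocU.PermP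

set_option autoImplicit false
set_option linter.unusedSectionVars false
set_option linter.style.haveILetI false

noncomputable section

namespace Fermat.Agent.S56lib.PT9.LocU

open Fermat.Agent.S55lib Fermat.Agent.S55lib.LocalUnr Fermat.Agent.S56lib.Euler
  Fermat.Agent.S56lib.Kum IsUltrametricDist Function

variable {p : ℕ} [hp : Fact p.Prime] {Γ : Type} [Group Γ] {π : GP p →* Γ} {hπ : Surjective π}
  (E : IntermediateField ℚ_[p] (PadicAlgCl p)) [FiniteDimensional ℚ_[p] E]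
  (hE : π.ker = E.fixingSubgroup)

/-! ### The Galois group of `E` -/

include hE in
lemma apply_eq_of_π_eq {g g' : GP p} (h : π g = π g') {a : PadicAlgCl p} (ha : a ∈ E) :
    g a = g' a := by
  have h1 : g'⁻¹ * g ∈ π.ker := by
    rw [MonoidHom.mem_ker, map_mul, map_inv, h, inv_mul_cancel]
  have h2 := fixed_of_mem_E E hE ha _ h1
  have e : g = g' * (g'⁻¹ * g) := by group
  rw [e, AlgEquiv.mul_apply, h2]

include hE in
lemma isGalois_E : IsGalois ℚ_[p] E := by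
  rw [← InfiniteGalois.normal_iff_isGalois, ← hE]
  exact π.normal_ker

variable [IsGalois ℚ_[p] E]

/-- `Γ → Gal(E/ℚ_p)` -/
def gamToGal (γ : Γ) : E ≃ₐ[ℚ_[p]] E := AlgEquiv.restrictNormalHom E (surjInv hπ γ)

include hE in
lemma gamToGal_apply {γ : Γ} {g : GP p} (hg : π g = γ) (a : E) :
    ((gamToGal (hπ := hπ) E γ a : E) : PadicAlgCl p) = g (a : PadicAlgCl p) := by
  unfold gamToGal
  rw [AlgEquiv.restrictNormalHom_apply]
  exact apply_eq_of_π_eq E hE (by rw [surjInv_eq hπ, hg]) a.2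

include hE in
lemma gamToGal_bijective : Bijective (gamToGal (hπ := hπ) E) := by
  constructor
  · intro γ γ' h
    have h1 : (surjInv hπ γ')⁻¹ * surjInv hπ γ ∈ π.ker := by
      rw [hE, IntermediateField.mem_fixingSubgroup_iff]
      intro a ha
      have h2 : ((gamToGal (hπ := hπ) E γ ⟨a, ha⟩ : E) : PadicAlgCl p) =
          ((gamToGal (hπ := hπ) E γ' ⟨a, ha⟩ : E) : PadicAlgCl p) := by rw [h]
      rw [gamToGal_apply E hE (surjInv_eq hπ γ), gamToGal_apply E hE (surjInv_eq hπ γ')] at h2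
      rw [AlgEquiv.mul_apply]
      show (surjInv hπ γ')⁻¹ ((surjInv hπ γ) a) = a
      have h3 : (surjInv hπ γ) a = (surjInv hπ γ') a := h2
      rw [h3]
      exact (surjInv hπ γ').symm_apply_apply a
    rw [MonoidHom.mem_ker, map_mul, map_inv, surjInv_eq hπ, surjInv_eq hπ, inv_mul_eq_one] at h1
    exact h1.symm
  · intro δ
    obtain ⟨g, rfl⟩ := AlgEquiv.restrictNormalHom_surjective (F := ℚ_[p]) (K₁ := E)
      (PadicAlgCl p) δ
    refine ⟨π g, ?_⟩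
    apply AlgEquiv.ext
    intro a
    apply Subtype.ext
    rw [gamToGal_apply E hE rfl, AlgEquiv.restrictNormalHom_apply]

/-- `Γ ≃ Gal(E/ℚ_p)` -/
def gamEquiv : Γ ≃ (E ≃ₐ[ℚ_[p]] E) := Equiv.ofBijective _ (gamToGal_bijective (hπ := hπ) E hE)

/-! ### The integral normal basis -/

/-- an exponent making the normal basis integral -/
def nbExp : ℕ :=
  Classical.choose (exists_pow_lt_of_lt_one (y := ‖(p : PadicAlgCl p)‖)
    (show 0 < (‖IsGalois.normalBasis ℚ_[p] E 1‖ + 1)⁻¹ from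
      inv_pos.2 (by positivity)) norm_p_lt_one)

lemma nbExp_spec :
    ‖(p : PadicAlgCl p)‖ ^ nbExp E < (‖IsGalois.normalBasis ℚ_[p] E 1‖ + 1)⁻¹ :=
  Classical.choose_spec (exists_pow_lt_of_lt_one (y := ‖(p : PadicAlgCl p)‖)
    (show 0 < (‖IsGalois.normalBasis ℚ_[p] E 1‖ + 1)⁻¹ from
      inv_pos.2 (by positivity)) norm_p_lt_one)

/-- the integral normal basis element -/
def nbElt : E := ((p : ℚ_[p]) ^ nbExp E) • IsGalois.normalBasis ℚ_[p] E 1

lemma norm_nbElt_le : ‖nbElt E‖ ≤ 1 := by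
  unfold nbElt
  rw [norm_smul, norm_pow, Padic.norm_p, ← norm_p_eq (p := p)]
  have h := nbExp_spec E
  have h0 : 0 ≤ ‖IsGalois.normalBasis ℚ_[p] E 1‖ := norm_nonneg _
  have h1 : (0 : ℝ) < ‖IsGalois.normalBasis ℚ_[p] E 1‖ + 1 := by positivity
  calc ‖(p : PadicAlgCl p)‖ ^ nbExp E * ‖IsGalois.normalBasis ℚ_[p] E 1‖
      ≤ (‖IsGalois.normalBasis ℚ_[p] E 1‖ + 1)⁻¹ * (‖IsGalois.normalBasis ℚ_[p] E 1‖ + 1) :=
        mul_le_mul h.le (by linarith) h0 (inv_pos.2 h1).le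
    _ = 1 := inv_mul_cancel₀ h1.ne'

/-- the integral normal basis, indexed by `Γ` -/
def nbBasis : Module.Basis Γ ℚ_[p] E :=
  ((IsGalois.normalBasis ℚ_[p] E).isUnitSMul
    (w := fun _ => (p : ℚ_[p]) ^ nbExp E)
    (fun _ => (IsUnit.mk0 _ (pow_ne_zero _ (by exact_mod_cast hp.out.ne_zero))))).reindex
    (gamEquiv (hπ := hπ) E hE).symm

lemma nbBasis_apply (γ : Γ) : nbBasis (hπ := hπ) E hE γ = gamToGal (hπ := hπ) E γ (nbElt E) := by
  unfold nbBasis nbElt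
  rw [Module.Basis.reindex_apply, Equiv.symm_symm, Module.Basis.isUnitSMul_apply,
    IsGalois.normalBasis_apply]
  exact ((gamToGal (hπ := hπ) E γ).toLinearMap.map_smul _ _).symm

/-- the normal basis in `ℚ̄_p` -/
def nbΩ (γ : Γ) : PadicAlgCl p := (nbBasis (hπ := hπ) E hE γ : E)

lemma nbΩ_mem (γ : Γ) : nbΩ (hπ := hπ) E hE γ ∈ E := (nbBasis (hπ := hπ) E hE γ).2

lemma nbΩ_eq {γ : Γ} {g : GP p} (hg : π g = γ) :
    nbΩ (hπ := hπ) E hE γ = g (nbElt E : PadicAlgCl p) := by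
  unfold nbΩ
  rw [nbBasis_apply, gamToGal_apply E hE hg]

lemma apply_nbΩ (g : GP p) (γ : Γ) :
    g (nbΩ (hπ := hπ) E hE γ) = nbΩ (hπ := hπ) E hE (π g * γ) := by
  obtain ⟨g', rfl⟩ := hπ γ
  rw [nbΩ_eq E hE (g := g') rfl, nbΩ_eq E hE (g := g * g') (map_mul π g g'), AlgEquiv.mul_apply]

lemma norm_nbΩ_le (γ : Γ) : ‖nbΩ (hπ := hπ) E hE γ‖ ≤ 1 := by
  obtain ⟨g, rfl⟩ := hπ γ
  rw [nbΩ_eq E hE (g := g) rfl, norm_gal]
  exact norm_nbElt_le E

lemma linearIndependent_nbΩ : LinearIndependent ℚ_[p] (nbΩ (hπ := hπ) E hE) := by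
  have h := (nbBasis (hπ := hπ) E hE).linearIndependent
  exact h.map' E.val.toLinearMap (LinearMap.ker_eq_bot.2 E.val.injective)

/-! ### The lattice map -/

section Lat

variable [Fintype Γ]

/-- the value of the lattice map -/
def latVal (u : PermMod Γ ℤ_[p] Γ) : PadicAlgCl p :=
  ∑ γ : Γ, algebraMap ℚ_[p] (PadicAlgCl p) ((PermMod.fn u γ : ℤ_[p]) : ℚ_[p]) *
    nbΩ (hπ := hπ) E hE γ

lemma latVal_mem (u : PermMod Γ ℤ_[p] Γ) : latVal (hπ := hπ) E hE u ∈ E :=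
  sum_mem (fun γ _ => mul_mem (E.algebraMap_mem _) (nbΩ_mem E hE γ))

lemma norm_latVal_le (u : PermMod Γ ℤ_[p] Γ) : ‖latVal (hπ := hπ) E hE u‖ ≤ 1 := by
  refine IsUltrametricDist.norm_sum_le_of_forall_le_of_nonneg zero_le_one (fun γ _ => ?_)
  rw [norm_mul, norm_algebraMap']
  exact mul_le_one₀ (PadicInt.norm_le_one _) (norm_nonneg _) (norm_nbΩ_le E hE γ)

lemma latVal_add (u u' : PermMod Γ ℤ_[p] Γ) :
    latVal (hπ := hπ) E hE (u + u') = latVal (hπ := hπ) E hE u + latVal (hπ := hπ) E hE u' := by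
  unfold latVal
  rw [← Finset.sum_add_distrib]
  refine Finset.sum_congr rfl (fun γ _ => ?_)
  rw [map_add, Pi.add_apply, PadicInt.coe_add, map_add, add_mul]

lemma apply_latVal (g : GP p) (u : PermMod Γ ℤ_[p] Γ) :
    g (latVal (hπ := hπ) E hE u) = latVal (hπ := hπ) E hE (gsm (π g) u) := by
  unfold latVal
  rw [map_sum, ← Equiv.sum_comp (Equiv.mulLeft (π g))
    (fun γ => algebraMap ℚ_[p] (PadicAlgCl p) ((PermMod.fn (gsm (π g) u) γ : ℤ_[p]) : ℚ_[p]) *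
      nbΩ (hπ := hπ) E hE γ)]
  refine Finset.sum_congr rfl (fun γ _ => ?_)
  rw [map_mul, AlgEquiv.commutes, apply_nbΩ, Equiv.coe_mulLeft, PermMod.fn_gsm, smul_eq_mul,
    inv_mul_cancel_left]

/-- **the lattice map `ℤ_p[Γ] → 𝒪_E`** -/
def latMap : PermMod Γ ℤ_[p] Γ →ₗ[ZG Γ] OA π hπ :=
  linOfComm
    (AddMonoidHom.mk' (fun u => OA.mk (latVal (hπ := hπ) E hE u)
        (fun v hv => fixed_of_mem_E E hE (latVal_mem E hE u) v hv) (norm_latVal_le E hE u)) (by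
      intro u u'
      apply OA_ext
      rw [Submodule.coe_add, aval_add, aval_OA_mk, aval_OA_mk, aval_OA_mk, latVal_add]))
    (by
      intro γ u
      obtain ⟨g, rfl⟩ := hπ γ
      apply OA_ext
      simp only [AddMonoidHom.mk'_apply]
      rw [coe_gsm_sub, aval_gsm, aval_OA_mk, aval_OA_mk, apply_latVal])

lemma aval_latMap (u : PermMod Γ ℤ_[p] Γ) :
    aval ((latMap (hπ := hπ) E hE u : OA π hπ) : XA π hπ) = latVal (hπ := hπ) E hE u := by
  unfold latMap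
  simp [linOfComm]

lemma latMap_injective : Injective (latMap (hπ := hπ) E hE) := by
  rw [injective_iff_map_eq_zero]
  intro u hu
  have h1 : latVal (hπ := hπ) E hE u = 0 := by
    rw [← aval_latMap, hu, Submodule.coe_zero, aval_zero]
  unfold latVal at h1
  have h2 : ∑ γ : Γ, ((PermMod.fn u γ : ℤ_[p]) : ℚ_[p]) • nbΩ (hπ := hπ) E hE γ = 0 := by
    rw [← h1]
    refine Finset.sum_congr rfl (fun γ _ => ?_)
    rw [Algebra.smul_def]
  have h3 := Fintype.linearIndependent_iff.1 (linearIndependent_nbΩ (hπ := hπ) E hE) _ h2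
  apply PermMod.ext
  intro γ
  rw [map_zero, Pi.zero_apply]
  exact PadicInt.ext (h3 γ)

lemma exists_coord_bound : ∃ C : ℝ, 0 < C ∧ ∀ (y : E) (γ : Γ),
    ‖(nbBasis (hπ := hπ) E hE).equivFun y γ‖ ≤ C * ‖y‖ := by
  obtain ⟨C, hC, h⟩ := (LinearMap.toContinuousLinearMap
    ((nbBasis (hπ := hπ) E hE).equivFun : E →ₗ[ℚ_[p]] (Γ → ℚ_[p]))).bound
  exact ⟨C, hC, fun y γ => (norm_le_pi_norm _ γ).trans (h y)⟩

/-- `p ^ N 𝒪_E` lies in the lattice -/
lemma exists_pow_smul_mem : ∃ N : ℕ, ∀ y : OA π hπ,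
    (p ^ N) • y ∈ LinearMap.range (latMap (hπ := hπ) E hE) := by
  obtain ⟨C, hC, hb⟩ := exists_coord_bound (hπ := hπ) E hE
  obtain ⟨N, hN⟩ := exists_pow_lt_of_lt_one (inv_pos.2 hC) (norm_p_lt_one (p := p))
  refine ⟨N, fun y => ?_⟩
  set yE : E := ⟨aval (y : XA π hπ), aval_mem E hE _⟩ with hyE
  set c := (nbBasis (hπ := hπ) E hE).equivFun (((p : ℚ_[p]) ^ N) • yE) with hc
  have hyE1 : ‖yE‖ ≤ 1 := norm_aval_OA y
  have hc1 : ∀ γ, ‖c γ‖ ≤ 1 := by
    intro γ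
    calc ‖c γ‖ ≤ C * ‖((p : ℚ_[p]) ^ N) • yE‖ := hb _ γ
      _ = C * (‖(p : PadicAlgCl p)‖ ^ N * ‖yE‖) := by
        rw [norm_smul, norm_pow, Padic.norm_p, norm_p_eq]
      _ ≤ C * (C⁻¹ * 1) := by
        refine mul_le_mul_of_nonneg_left ?_ hC.le
        exact mul_le_mul hN.le hyE1 (norm_nonneg _) (inv_pos.2 hC).le
      _ = 1 := by rw [mul_one, mul_inv_cancel₀ hC.ne']
  let w : Γ → ℤ_[p] := fun γ => ⟨c γ, hc1 γ⟩
  have hw : ∀ γ, ((w γ : ℤ_[p]) : ℚ_[p]) = c γ := fun _ => rfl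
  refine ⟨PermMod.fn.symm w, ?_⟩
  apply OA_ext
  rw [aval_latMap, Submodule.coe_smul_of_tower, aval_nsmul]
  unfold latVal
  have h1 := (nbBasis (hπ := hπ) E hE).sum_equivFun (((p : ℚ_[p]) ^ N) • yE)
  have h2 : ((∑ γ : Γ, (nbBasis (hπ := hπ) E hE).equivFun (((p : ℚ_[p]) ^ N) • yE) γ •
      nbBasis (hπ := hπ) E hE γ : E) : PadicAlgCl p) = ((((p : ℚ_[p]) ^ N) • yE : E) : PadicAlgCl p) :=
    congrArg Subtype.val h1
  rw [AddSubmonoidClass.coe_finsetSum] at h2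
  have h3 : ((((p : ℚ_[p]) ^ N) • yE : E) : PadicAlgCl p) =
      ((p ^ N : ℕ) : PadicAlgCl p) * aval (y : XA π hπ) := by
    rw [IntermediateField.coe_smul, Algebra.smul_def, map_pow, map_natCast]
    push_cast
    rfl
  rw [← h3, ← h2]
  refine Finset.sum_congr rfl (fun γ _ => ?_)
  rw [AddEquiv.apply_symm_apply, hw, IntermediateField.coe_smul, Algebra.smul_def]
  rfl

/-- **the lattice has finite index** -/
theorem finite_OA_quot_latMap : Finite (OA π hπ ⧸ LinearMap.range (latMap (hπ := hπ) E hE)) := by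
  obtain ⟨N, hN⟩ := exists_pow_smul_mem (hπ := hπ) E hE
  have hpN : 0 < ‖(p : PadicAlgCl p)‖ ^ N := pow_pos norm_p_pos N
  refine finite_quotient_of_compact _ (fun y => aval (y : XA π hπ))
    {y : PadicAlgCl p | y ∈ E ∧ ‖y‖ ≤ 1} (isCompact_ballE E 1)
    (fun y => ⟨aval_mem E hE _, norm_aval_OA y⟩) _ hpN ?_
  intro y y' hd
  rw [dist_eq_norm] at hd
  have hp0 := p_ne_zero (p := p)
  have e : y - y' = (p ^ N) • OA.mk ((aval (y : XA π hπ) - aval (y' : XA π hπ)) /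
      (p : PadicAlgCl p) ^ N) (by
        intro u hu
        rw [map_div₀, map_sub, map_pow, map_natCast, aval_fixed _ u hu, aval_fixed _ u hu]) (by
        rw [norm_div, norm_pow, div_le_one hpN]
        exact hd.le) := by
    apply OA_ext
    rw [Submodule.coe_smul_of_tower, aval_nsmul, aval_OA_mk, Submodule.coe_sub, aval_sub]
    push_cast
    field_simp
  rw [e]
  exact hN _

include hE in
/-- `𝒪_E/p` is finite -/
theorem finite_cot_OA : Finite (Cot (ZG Γ) p (OA π hπ)) := by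
  refine finite_quotient_of_compact _ (fun y => aval (y : XA π hπ))
    {y : PadicAlgCl p | y ∈ E ∧ ‖y‖ ≤ 1} (isCompact_ballE E 1)
    (fun y => ⟨aval_mem E hE _, norm_aval_OA y⟩) _ (norm_p_pos (p := p)) ?_
  intro y y' hd
  rw [dist_eq_norm] at hd
  have hp0 := p_ne_zero (p := p)
  rw [LinearMap.mem_range]
  refine ⟨OA.mk ((aval (y : XA π hπ) - aval (y' : XA π hπ)) / (p : PadicAlgCl p)) (by
        intro u hu
        rw [map_div₀, map_sub, map_natCast, aval_fixed _ u hu, aval_fixed _ u hu]) (by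
        rw [norm_div, div_le_one norm_p_pos]
        exact hd.le), ?_⟩
  apply OA_ext
  rw [mulP_apply, Submodule.coe_smul_of_tower, aval_nsmul, aval_OA_mk, Submodule.coe_sub, aval_sub]
  field_simp

end Lat

/-- `Γ ≃ Γ/1` as `Γ`-sets -/
def quotBotEquiv (Γ : Type) [Group Γ] : Γ ≃ Γ ⧸ (⊥ : Subgroup Γ) :=
  Equiv.ofBijective (QuotientGroup.mk : Γ → Γ ⧸ (⊥ : Subgroup Γ))
    ⟨fun a b h => by
      have h1 := QuotientGroup.eq.1 h
      rw [Subgroup.mem_bot, inv_mul_eq_one] at h1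
      exact h1, QuotientGroup.mk_surjective⟩

omit [IsGalois ℚ_[p] E] in
include hE in
/-- **`ψ(𝒪_E/p) = ψ(𝔽_p[Γ])`** and `𝒪_E/p` is finite -/
theorem psi_cot_OA [Finite Γ] : Finite (Cot (ZG Γ) p (OA π hπ)) ∧
    ∀ ψ : AddInvariant (ZG Γ) p, ψ.val (Cot (ZG Γ) p (OA π hπ)) =
      ψ.val (PermMod Γ (ZMod p) (Γ ⧸ (⊥ : Subgroup Γ))) := by
  cases nonempty_fintype Γ
  haveI := isGalois_E E hE
  haveI hfin : Finite (Cot (ZG Γ) p (OA π hπ)) := finite_cot_OA E hE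
  refine ⟨hfin, fun ψ => ?_⟩
  haveI := finite_OA_quot_latMap (hπ := hπ) E hE
  have h1 := bn_lattice ψ (latMap (hπ := hπ) E hE) (latMap_injective E hE)
    (tors_permP p Γ) tors_OA
  haveI : PGood (ZG Γ) p (PermMod Γ ℤ_[p] Γ) := pGood_of_tors_eq_bot _ (tors_permP p Γ)
  have h2 : ψ.val (Cot (ZG Γ) p (PermMod Γ ℤ_[p] Γ)) = ψ.val (PermMod Γ (ZMod p) Γ) :=
    ψ.iso _ _ (cotEquivP p Γ)
  have h3 : ψ.val (PermMod Γ (ZMod p) Γ) = ψ.val (PermMod Γ (ZMod p) (Γ ⧸ (⊥ : Subgroup Γ))) :=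
    ψ.iso _ _ (permCongr (quotBotEquiv Γ) (fun _ _ => rfl))
  rw [← h1, h2, h3]

end Fermat.Agent.S56lib.PT9.LocU
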