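/-
S56 marathon, WP2 (q = p) of the Euler characteristic block (helper8), file 8: **the equivariant Euler
characteristic of the local units at `p`**.  `π : G_p →* Γ` onto a finite group with open kernel,
`X = (ℚ̄_pˣ)^{ker π} = E^×`; `p` odd.  Then `X[p]`, `X/p` are finite and
`δ_ψ(X) = −ψ(𝔽_p) − ψ(𝔽_p[Γ])` for every additive invariant `ψ` (`localUnits_eq`: helper1's
`EulerSpec.LocalUnits p q` for `(q : ℕ) = p`, with the extra hypothesis `p ≠ 2`).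
-/
import Mathlib
import Fermat.Agent.S56lib.PT9.LocU.Lattice
import Fermat.Agent.S55lib.LocalUnr.LevelBasis
import Fermat.Agent.S55lib.GlobDual.JSCoind

set_option autoImplicit false
set_option linter.unusedSectionVars false
set_option linter.style.haveILetI false

noncomputable section

namespace Fermat.Agent.S56lib.PT9.LocU

open Fermat.Agent.S55lib Fermat.Agent.S55lib.LocalUnr Fermat.Agent.S56lib.Euler
  Fermat.Agent.S56lib.Kum IsUltrametricDist Function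

section Gen

variable {p : ℕ} [hp : Fact p.Prime] {Γ : Type} [Group Γ] [Finite Γ] {π : GP p →* Γ}
  {hπ : Surjective π} (E : IntermediateField ℚ_[p] (PadicAlgCl p)) [FiniteDimensional ℚ_[p] E]
  (hE : π.ker = E.fixingSubgroup)

include hE in
/-- the ball `BU` is `PGood` and `δ(BU) = −ψ(𝔽_p[Γ])` -/
theorem delta_BU (hp2 : p ≠ 2) : PGood (ZG Γ) p (BU π hπ) ∧
    ∀ ψ : AddInvariant (ZG Γ) p, delta (ZG Γ) p (BU π hπ) ψ =
      - ψ.val (PermMod Γ (ZMod p) (Γ ⧸ (⊥ : Subgroup Γ))) := by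
  obtain ⟨hfin, hψ⟩ := psi_cot_OA (hπ := hπ) E hE
  haveI : Finite (Cot (ZG Γ) p (BU π hπ)) :=
    Finite.of_injective _ (cotBU (hπ := hπ) E hE hp2).injective
  haveI hB : PGood (ZG Γ) p (BU π hπ) := pGood_of_tors_eq_bot _ (tors_BU hp2)
  refine ⟨hB, fun ψ => ?_⟩
  rw [delta_of_tors_eq_bot ψ _ (tors_BU hp2), ψ.iso _ _ (cotBU (hπ := hπ) E hE hp2), hψ ψ]

include hE in
/-- **`δ_ψ(E^×) = −ψ(𝔽_p) − ψ(𝔽_p[Γ])`** (`p` odd) -/
theorem localUnits_gen (hp2 : p ≠ 2) : PGood (ZG Γ) p (XU π hπ) ∧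
    ∀ ψ : AddInvariant (ZG Γ) p, delta (ZG Γ) p (XU π hπ) ψ =
      - ψ.val (PermMod Γ (ZMod p) (Γ ⧸ (⊤ : Subgroup Γ)))
        - ψ.val (PermMod Γ (ZMod p) (Γ ⧸ (⊥ : Subgroup Γ))) := by
  obtain ⟨hB, hδ⟩ := delta_BU (hπ := hπ) E hE hp2
  haveI : PGood (ZG Γ) p (ballU π hπ ‖(p : PadicAlgCl p)‖) := hB
  obtain ⟨hX, h⟩ := delta_XU (hπ := hπ) E hE p ‖(p : PadicAlgCl p)‖ norm_p_pos norm_p_lt_one
  refine ⟨hX, fun ψ => ?_⟩
  rw [h ψ, hδ ψ]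
  ring

end Gen

/-- `δ_ψ(L_w^×) = −ψ(𝔽_q) − ψ(𝔽_q[Γ])` for the residue characteristic `q`, `q` odd -/
theorem localUnits_q (q : Nat.Primes) (hq2 : (q : ℕ) ≠ 2)
    (Γ : Type) [Group Γ] [Finite Γ] (π : Gloc q →* Γ) (hπ : Surjective π)
    (hopen : (basisLoc q).IsOpen π.ker) :
    PGood (ZG Γ) (q : ℕ) (InvMod π hπ (Yloc q)) ∧
    ∀ ψ : AddInvariant (ZG Γ) (q : ℕ),
      delta (ZG Γ) (q : ℕ) (InvMod π hπ (Yloc q)) ψ =
        - ψ.val (PermMod Γ (ZMod (q : ℕ)) (Γ ⧸ (⊤ : Subgroup Γ)))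
          - ψ.val (PermMod Γ (ZMod (q : ℕ)) (Γ ⧸ (⊥ : Subgroup Γ))) := by
  obtain ⟨E, hEfin, hE⟩ := @exists_eq_fixingSubgroup_of_isOpen ℚ_[(q : ℕ)] (PadicAlgCl (q : ℕ))
    _ _ _ _ (basisLoc q) (isGalBasis_ofLevel_rloc q) _ hopen
  exact localUnits_gen (p := (q : ℕ)) (π := π) (hπ := hπ) E hE hq2

/-- **WP2 for `q = p`** (helper1's `EulerSpec.LocalUnits p q` with `(q : ℕ) = p`, `p` odd) -/
theorem localUnits_eq (p : ℕ) [Fact p.Prime] (q : Nat.Primes) (hq : (q : ℕ) = p) (hp2 : p ≠ 2)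
    (Γ : Type) [Group Γ] [Finite Γ] (π : Gloc q →* Γ) (hπ : Surjective π)
    (hopen : (basisLoc q).IsOpen π.ker) :
    PGood (ZG Γ) p (InvMod π hπ (Yloc q)) ∧
    ∀ ψ : AddInvariant (ZG Γ) p,
      delta (ZG Γ) p (InvMod π hπ (Yloc q)) ψ =
        - ψ.val (PermMod Γ (ZMod p) (Γ ⧸ (⊤ : Subgroup Γ)))
          - (if (q : ℕ) = p then ψ.val (PermMod Γ (ZMod p) (Γ ⧸ (⊥ : Subgroup Γ))) else 0) := by
  have key : PGood (ZG Γ) p (InvMod π hπ (Yloc q)) ∧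
      ∀ ψ : AddInvariant (ZG Γ) p,
        delta (ZG Γ) p (InvMod π hπ (Yloc q)) ψ =
          - ψ.val (PermMod Γ (ZMod p) (Γ ⧸ (⊤ : Subgroup Γ)))
            - ψ.val (PermMod Γ (ZMod p) (Γ ⧸ (⊥ : Subgroup Γ))) := by
    subst hq
    exact localUnits_q q hp2 Γ π hπ hopen
  refine ⟨key.1, fun ψ => ?_⟩
  rw [key.2 ψ, if_pos hq]

end Fermat.Agent.S56lib.PT9.LocU
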