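/-
S56 marathon, WP2 of the Euler characteristic block, glue (helper8): **`EulerSpec.LocalUnits p q` for every
prime `q`**, `p` odd: helper7's `PT9a.localUnits_ne` (`q ≠ p`) and `LocU.localUnits_eq` (`q = p`).
-/
import Mathlib
import Fermat.Agent.S56lib.PT9.LocU.Main
import Fermat.Agent.S56lib.PT9a.LocUnitsNe

set_option autoImplicit false

noncomputable section

namespace Fermat.Agent.S56lib.PT9.LocU

open Fermat.Agent.S55lib Fermat.Agent.S56lib.Euler Function

/-- **WP2 (local units, equivariant), all primes `q`** — the literal body of helper1's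
`EulerSpec.LocalUnits p q`, for `p` odd. -/
theorem localUnits (p : ℕ) [Fact p.Prime] (hp2 : p ≠ 2) (q : Nat.Primes) :
    ∀ (Γ : Type) [Group Γ] [Finite Γ] (π : Gloc q →* Γ) (hπ : Surjective π),
      (basisLoc q).IsOpen π.ker →
      PGood (ZG Γ) p (InvMod π hπ (Yloc q)) ∧
      ∀ ψ : AddInvariant (ZG Γ) p,
        delta (ZG Γ) p (InvMod π hπ (Yloc q)) ψ =
          - ψ.val (PermMod Γ (ZMod p) (Γ ⧸ (⊤ : Subgroup Γ)))
            - (if (q : ℕ) = p then ψ.val (PermMod Γ (ZMod p) (Γ ⧸ (⊥ : Subgroup Γ))) else 0) := by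
  by_cases h : (q : ℕ) = p
  · exact fun Γ _ _ π hπ ho => localUnits_eq p q h hp2 Γ π hπ ho
  · exact PT9a.localUnits_ne p q h

end Fermat.Agent.S56lib.PT9.LocU
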