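/-
S56 marathon, WP2 (q = p) of the Euler characteristic block (helper8), file 1: **the `p`-power map on the
principal units of level `‖p‖`**, `p` odd.
* `norm_pow_sub_one_eq` : `‖x − 1‖ ≤ ‖p‖ ⟹ ‖x ^ p − 1‖ = ‖p‖ ‖x − 1‖` (any ultrametric normed field);
* `exists_pow_eq_of_norm_le` : in a normed local field with `0 < ‖p‖ < 1`, every `z` with
  `‖z − 1‖ ≤ ‖p‖ ^ 2` is `x ^ p` with `‖x − 1‖ ≤ ‖p‖` (helper3's sharp Hensel).
-/
import Mathlib
import Fermat.Agent.S56lib.Kum.HenselLocal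

set_option autoImplicit false
set_option linter.unusedSectionVars false
set_option linter.style.haveILetI false

open scoped NormedField Valued NNReal

namespace Fermat.Agent.S56lib.PT9.LocU

open Fermat.Agent.S55lib.LocalUnr Fermat.Agent.S56lib.Kum IsUltrametricDist

section Field

variable {Ω : Type*} [NormedField Ω] [IsUltrametricDist Ω] {p : ℕ}

/-- `(1 + b) ^ p = 1 + p b + p b² c + b ^ p` with `‖c‖ ≤ 1` for `‖b‖ ≤ 1` -/
theorem one_add_pow_prime_eq_norm (hp : p.Prime) {b : Ω} (hb : ‖b‖ ≤ 1) :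
    ∃ c : Ω, ‖c‖ ≤ 1 ∧ (1 + b) ^ p = 1 + p * b + p * b ^ 2 * c + b ^ p := by
  obtain ⟨n, rfl⟩ : ∃ n, p = n + 2 := ⟨p - 2, by have := hp.two_le; omega⟩
  refine ⟨∑ m ∈ Finset.range n, b ^ m * (((n + 2).choose (m + 2) / (n + 2) : ℕ) : Ω), ?_, ?_⟩
  · refine norm_sum_le_of_forall_le_of_nonneg zero_le_one (fun m _ => ?_)
    rw [norm_mul, norm_pow]
    calc ‖b‖ ^ m * ‖(((n + 2).choose (m + 2) / (n + 2) : ℕ) : Ω)‖ ≤ 1 * 1 :=
          mul_le_mul (pow_le_one₀ (norm_nonneg _) hb) (norm_natCast_le_one Ω _) (norm_nonneg _)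
            zero_le_one
      _ = 1 := one_mul 1
  · have hchoose : ∀ m ∈ Finset.range n,
        (((n + 2).choose (m + 2) : ℕ) : Ω) = ((n + 2 : ℕ) : Ω) *
          (((n + 2).choose (m + 2) / (n + 2) : ℕ) : Ω) := by
      intro m hm
      have hm' : m + 2 < n + 2 := by simpa using Finset.mem_range.mp hm
      have hdvd := hp.dvd_choose_self (Nat.succ_ne_zero (m + 1)) hm'
      rw [← Nat.cast_mul, Nat.mul_div_cancel' hdvd]
    rw [add_comm 1 b, add_pow, Finset.sum_range_succ, Finset.sum_range_succ',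
      Finset.sum_range_succ']
    simp only [one_pow, mul_one, Nat.choose_self, Nat.cast_one, pow_zero, Nat.choose_zero_right,
      Nat.sub_self, zero_add, pow_one, Nat.choose_one_right]
    rw [Finset.sum_congr rfl (fun m hm => by rw [hchoose m hm])]
    rw [Finset.mul_sum]
    have : ∀ m ∈ Finset.range n, b ^ (m + 1 + 1) * (((n + 2 : ℕ) : Ω) *
        (((n + 2).choose (m + 2) / (n + 2) : ℕ) : Ω)) =
        ((n + 2 : ℕ) : Ω) * b ^ 2 * (b ^ m * (((n + 2).choose (m + 2) / (n + 2) : ℕ) : Ω)) := by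
      intro m _
      ring
    rw [Finset.sum_congr rfl this]
    push_cast
    ring

/-- **`‖x ^ p − 1‖ = ‖p‖ ‖x − 1‖` for `‖x − 1‖ ≤ ‖p‖ < 1`, `p` odd** -/
theorem norm_pow_sub_one_eq (hp : p.Prime) (hp2 : p ≠ 2) (hpΩ : ‖(p : Ω)‖ < 1) {x : Ω}
    (hx : ‖x - 1‖ ≤ ‖(p : Ω)‖) : ‖x ^ p - 1‖ = ‖(p : Ω)‖ * ‖x - 1‖ := by
  set y : Ω := x - 1 with hy
  have hxy : x = 1 + y := by rw [hy]; ring
  have hy1 : ‖y‖ ≤ 1 := hx.trans hpΩ.le
  obtain ⟨c, hc, hpow⟩ := one_add_pow_prime_eq_norm hp hy1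
  by_cases hy0 : y = 0
  · rw [hxy, hy0]
    simp
  have hypos : 0 < ‖y‖ := norm_pos_iff.2 hy0
  have hppos : 0 < ‖(p : Ω)‖ := lt_of_lt_of_le hypos hx
  have hdec : x ^ p - 1 = p * y + (p * y ^ 2 * c + y ^ p) := by
    rw [hxy, hpow]; ring
  have hylt : ‖y‖ < 1 := lt_of_le_of_lt hx hpΩ
  have h1 : ‖(p : Ω) * y ^ 2 * c‖ < ‖(p : Ω) * y‖ := by
    rw [norm_mul, norm_mul, norm_mul, norm_pow]
    calc ‖(p : Ω)‖ * ‖y‖ ^ 2 * ‖c‖ ≤ ‖(p : Ω)‖ * ‖y‖ ^ 2 * 1 :=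
          mul_le_mul_of_nonneg_left hc (by positivity)
      _ = ‖(p : Ω)‖ * ‖y‖ * ‖y‖ := by ring
      _ < ‖(p : Ω)‖ * ‖y‖ * 1 := mul_lt_mul_of_pos_left hylt (by positivity)
      _ = ‖(p : Ω)‖ * ‖y‖ := mul_one _
  have h2 : ‖y ^ p‖ < ‖(p : Ω) * y‖ := by
    obtain ⟨n, rfl⟩ : ∃ n, p = n + 3 := ⟨p - 3, by
      have := hp.two_le
      have : p ≠ 2 := hp2
      omega⟩
    rw [norm_mul, norm_pow]
    calc ‖y‖ ^ (n + 3) = ‖y‖ ^ (n + 1) * (‖y‖ * ‖y‖) := by ring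
      _ ≤ ‖y‖ ^ (n + 1) * (‖((n + 3 : ℕ) : Ω)‖ * ‖y‖) :=
          mul_le_mul_of_nonneg_left (mul_le_mul_of_nonneg_right hx (norm_nonneg _)) (by positivity)
      _ < 1 * (‖((n + 3 : ℕ) : Ω)‖ * ‖y‖) :=
          mul_lt_mul_of_pos_right (pow_lt_one₀ (norm_nonneg _) hylt (by omega)) (by positivity)
      _ = _ := one_mul _
  rw [hdec, norm_add_eq_left, norm_mul]
  exact lt_of_le_of_lt (norm_add_le_max _ _) (max_lt h1 h2)

end Field

section Local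

variable {K : Type*} [NontriviallyNormedField K] [IsUltrametricDist K] [ProperSpace K] {p : ℕ}

/-- **`p`-th roots of principal units of level `‖p‖²`**: `‖z − 1‖ ≤ ‖p‖ ^ 2 ⟹ z = x ^ p` with
`‖x − 1‖ ≤ ‖p‖` (`p` odd, `0 < ‖p‖ < 1`) -/
theorem exists_pow_eq_of_norm_le (hp : p.Prime) (hp2 : p ≠ 2) (hpK : ‖(p : K)‖ < 1)
    (hp0 : (p : K) ≠ 0) {z : K} (hz : ‖z - 1‖ ≤ ‖(p : K)‖ ^ 2) :
    ∃ x : K, ‖x - 1‖ ≤ ‖(p : K)‖ ∧ x ^ p = z := by
  haveI := isAdicComplete_integer K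
  have hepos : 0 < ord K (p : K) := (ord_pos_iff hp0).mpr hpK
  set e : ℕ := (ord K (p : K)).toNat with he
  have heZ : (e : ℤ) = ord K (p : K) := Int.toNat_of_nonneg hepos.le
  have he1 : 1 ≤ e := by
    have : (1 : ℤ) ≤ (e : ℤ) := by rw [heZ]; omega
    exact_mod_cast this
  have hnorm : unifNorm K ^ e = ‖(p : K)‖ := by
    rw [norm_eq_zpow_ord hp0, ← zpow_natCast, heZ]
  have hz1 : ‖z - 1‖ < 1 := by
    refine lt_of_le_of_lt hz ?_
    calc ‖(p : K)‖ ^ 2 ≤ ‖(p : K)‖ ^ 1 :=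
          pow_le_pow_of_le_one (norm_nonneg _) hpK.le (by omega)
      _ = ‖(p : K)‖ := pow_one _
      _ < 1 := hpK
  have hun : ‖z‖ = 1 := norm_one_unit hz1
  let z' : 𝒪[K] := ⟨z, by rw [Valued.integer.mem_iff]; exact hun.le⟩
  have hz'unit : IsUnit z' := by
    rw [Valued.integer.isUnit_iff_norm_eq_one]; exact hun
  obtain ⟨zu, hzu⟩ := hz'unit
  have hmem : ((zu : (𝒪[K])ˣ) : 𝒪[K]) - 1 ∈ 𝓂[K] ^ (e + e) := by
    rw [hzu, mem_maximalIdeal_pow_iff]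
    show ‖z - 1‖ ≤ _
    rw [pow_add, hnorm, ← pow_two]
    exact hz
  have hem : e < (p - 1) * e := by
    have h3 : 3 ≤ p := by
      have := hp.two_le
      omega
    have : 2 ≤ p - 1 := by omega
    nlinarith
  obtain ⟨y, hy, hy1⟩ := exists_pow_eq_of_sub_one_mem_sharp 𝓂[K]
    (fun x hx => by
      have : ‖((x : 𝒪[K]) : K) - 1‖ < 1 := by
        have := (mem_maximalIdeal_iff K).mp hx
        simpa using this
      rw [Valued.integer.isUnit_iff_norm_eq_one]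
      exact norm_one_unit this)
    hp e e (span_natCast_eq_pow hpK hp0) he1 hem zu hmem
  refine ⟨((y : (𝒪[K])ˣ) : 𝒪[K]), ?_, ?_⟩
  · have := (mem_maximalIdeal_pow_iff K _ e).mp hy1
    rw [hnorm] at this
    simpa using this
  · have h1 := congrArg (fun w : (𝒪[K])ˣ => (((w : (𝒪[K])ˣ) : 𝒪[K]) : K)) hy
    simp only [Units.val_pow_eq_pow_val, SubmonoidClass.coe_pow] at h1
    rw [h1, hzu]

end Local

end Fermat.Agent.S56lib.PT9.LocU
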