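/-
S56 marathon, WP2 (q = p) of the Euler characteristic block (helper8), file 6: **permutation modules with
`ℤ_p`-coefficients**.  `ℤ_p[X]` has no `p`-torsion and `ℤ_p[X]/p ≅ 𝔽_p[X]`; change of the `Γ`-set along an
equivariant bijection.
-/
import Mathlib
import Fermat.Agent.S56lib.Euler.Perm

set_option autoImplicit false
set_option linter.unusedSectionVars false
set_option linter.style.haveILetI false

noncomputable section

namespace Fermat.Agent.S56lib.PT9.LocU

open Fermat.Agent.S56lib.Euler Function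

variable {Γ : Type} [Group Γ]

section Congr

variable {A : Type} [AddCommGroup A] {X Y : Type} [MulAction Γ X] [MulAction Γ Y]

/-- transport of functions along a bijection -/
def funCongrAdd (e : X ≃ Y) : (X → A) ≃+ (Y → A) where
  toFun u := fun y => u (e.symm y)
  invFun v := fun x => v (e x)
  left_inv u := by funext x; simp
  right_inv v := by funext y; simp
  map_add' _ _ := rfl

/-- change of the set along a bijection, additively -/
def permCongrAdd (e : X ≃ Y) : PermMod Γ A X ≃+ PermMod Γ A Y :=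
  (PermMod.fn.trans (funCongrAdd e)).trans PermMod.fn.symm

lemma fn_permCongrAdd (e : X ≃ Y) (u : PermMod Γ A X) (y : Y) :
    PermMod.fn (permCongrAdd (Γ := Γ) e u) y = PermMod.fn u (e.symm y) := by
  unfold permCongrAdd
  rw [AddEquiv.trans_apply, AddEquiv.apply_symm_apply, AddEquiv.trans_apply]
  rfl

/-- change of the `Γ`-set along an equivariant bijection -/
def permCongr (e : X ≃ Y) (he : ∀ (g : Γ) (x : X), e (g • x) = g • e x) :
    PermMod Γ A X ≃ₗ[ZG Γ] PermMod Γ A Y :=
  equivOfComm (permCongrAdd e)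
    (by
      intro g u
      apply PermMod.ext
      intro y
      rw [PermMod.fn_gsm, fn_permCongrAdd, fn_permCongrAdd, PermMod.fn_gsm]
      have h : g⁻¹ • e.symm y = e.symm (g⁻¹ • y) := by
        apply e.injective
        rw [he, e.apply_symm_apply, e.apply_symm_apply]
      rw [h])

end Congr

section Padic

variable (p : ℕ) [hp : Fact p.Prime] (X : Type) [MulAction Γ X]

/-- reduction mod `p` on `ℤ_p[X]` -/
def redP : PermMod Γ ℤ_[p] X →ₗ[ZG Γ] PermMod Γ (ZMod p) X :=
  PermMod.mapCoeff (PadicInt.toZMod (p := p)).toAddMonoidHom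

theorem redP_surjective : Surjective (redP (Γ := Γ) p X) := by
  intro v
  choose w hw using fun x => ZMod.ringHom_surjective (PadicInt.toZMod (p := p)) (PermMod.fn v x)
  refine ⟨PermMod.fn.symm w, ?_⟩
  apply PermMod.ext
  intro x
  simp [redP, hw]

theorem ker_redP : LinearMap.ker (redP (Γ := Γ) p X) =
    LinearMap.range (mulP (ZG Γ) p (PermMod Γ ℤ_[p] X)) := by
  ext u
  rw [LinearMap.mem_ker, LinearMap.mem_range]
  constructor
  · intro h
    have h1 : ∀ x, ∃ w : ℤ_[p], (p : ℤ_[p]) * w = PermMod.fn u x := by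
      intro x
      have h2 := congrArg (fun w => PermMod.fn w x) h
      simp only [redP, PermMod.fn_mapCoeff, RingHom.toAddMonoidHom_eq_coe, AddMonoidHom.coe_coe,
        map_zero, Pi.zero_apply] at h2
      have h3 : PermMod.fn u x ∈ RingHom.ker (PadicInt.toZMod (p := p)) := h2
      rw [PadicInt.ker_toZMod, PadicInt.maximalIdeal_eq_span_p, Ideal.mem_span_singleton'] at h3
      obtain ⟨a, ha⟩ := h3
      exact ⟨a, by rw [mul_comm]; exact ha⟩
    choose w hw using h1
    refine ⟨PermMod.fn.symm w, ?_⟩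
    apply PermMod.ext
    intro x
    rw [mulP_apply, map_nsmul, AddEquiv.apply_symm_apply, Pi.smul_apply, ← hw x, nsmul_eq_mul]
  · rintro ⟨w, rfl⟩
    apply PermMod.ext
    intro x
    simp [redP, map_nsmul]

/-- `ℤ_p[X]/p ≅ 𝔽_p[X]` -/
def cotEquivP : Cot (ZG Γ) p (PermMod Γ ℤ_[p] X) ≃ₗ[ZG Γ] PermMod Γ (ZMod p) X :=
  (Submodule.quotEquivOfEq _ _ (ker_redP p X).symm).trans
    ((redP p X).quotKerEquivOfSurjective (redP_surjective p X))

theorem tors_permP : tors (ZG Γ) p (PermMod Γ ℤ_[p] X) = ⊥ := by
  rw [eq_bot_iff]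
  intro u hu
  rw [mem_tors] at hu
  rw [Submodule.mem_bot]
  apply PermMod.ext
  intro x
  have := congrArg (fun w => PermMod.fn w x) hu
  simp only [map_nsmul, Pi.smul_apply, map_zero, Pi.zero_apply, nsmul_eq_mul] at this
  rcases mul_eq_zero.1 this with h | h
  · exact absurd (by exact_mod_cast h) hp.out.ne_zero
  · simpa using h

instance finite_cot_permP [Finite X] : Finite (Cot (ZG Γ) p (PermMod Γ ℤ_[p] X)) :=
  Finite.of_injective _ (cotEquivP (Γ := Γ) p X).injective

end Padic

end Fermat.Agent.S56lib.PT9.LocU
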